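import Fermat.Agent.LT.Local.Identities
import Fermat.Agent.CFT.Flat.Slots

/-!
# The decomposition group of an unramified prime

A homomorphism of finite level which is trivial on inertia sends the decomposition group to the
powers of the image of a Frobenius element.
-/

set_option autoImplicit false

noncomputable section

namespace Fermat.Agent.LT.Deform

open Fermat.Agent.Arith (QBar GQ)
open Fermat.Agent.CFT.Flat

/-- An unramified representation of finite level sends decomposition elements to Frobenius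
powers. -/
theorem exists_pow_frobenius_eq {q : ℕ} [Fact q.Prime] {H : Type*} [Monoid H] (ρ : GQ →* H)
    (L : IntermediateField ℚ QBar) [FiniteDimensional ℚ L]
    (hL : ∀ g : GQ, (∀ x ∈ L, g x = x) → ρ g = 1) (hI : ∀ t ∈ inG q, ρ t = 1) {F : GQ}
    (hF : (padicPlace q).IsFrobeniusAt F q) {g : GQ} (hg : g ∈ decG q) :
    ∃ k : ℕ, ρ g = ρ F ^ k := by
  let L' : IntermediateField ℚ QBar := IntermediateField.normalClosure ℚ L QBar
  have : Normal ℚ L' := normalClosure.normal ℚ L QBar
  have : FiniteDimensional ℚ L' := normalClosure.is_finiteDimensional ℚ L QBar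
  obtain ⟨i, h, t, hh, -, ht, rfl⟩ := exists_frobenius_decomp (p := q) (φ := F) hF.choose
    (fun x hx => (mem_nonunits_iff q).mp
      ((Arith.isFrobeniusAt_iff_forall_mem.mp hF).2 x ((mem_place_iff q).mpr hx))) hg L'
  refine ⟨i, ?_⟩
  rw [map_mul, map_mul, hI t ht, mul_one, map_pow,
    hL h fun x hx => (IntermediateField.mem_fixingSubgroup_iff _ _).mp hh x
      (IntermediateField.le_normalClosure L hx), mul_one]

/-- At an unramified prime where the Frobenius satisfies `(F - q) (F - 1) = 0` with trace `q + 1`,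
the representation is ordinary with trivial quotient character. -/
theorem ordAt_of_frobenius {q : ℕ} [Fact q.Prime] {S : Type*} [CommRing S] (ρ : GQ →* M2 S)
    {D : Set GQ} {χ : GQ → ℤ} {F : GQ}
    (hpow : ∀ g ∈ D, ∃ k : ℕ, ρ g = ρ F ^ k ∧ (χ g : S) = (q : S) ^ k)
    (hquad : (ρ F - (q : S) • 1) * (ρ F - 1) = 0) (htr : (ρ F).trace = (q : S) + 1) :
    OrdAt ρ D χ fun _ => 1 := by
  set X := ρ F with hX
  have h1 : X * (X - 1) = (q : S) • (X - 1) := by
    rw [sub_mul, sub_eq_zero, Algebra.smul_mul_assoc, one_mul] at hquad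
    exact hquad
  have hk : ∀ k : ℕ, X ^ k * (X - 1) = (q : S) ^ k • (X - 1) := fun k => by
    induction k with
    | zero => rw [pow_zero, pow_zero, one_mul, one_smul]
    | succ k ih => rw [pow_succ, mul_assoc, h1, Algebra.mul_smul_comm, ih, smul_smul, pow_succ']
  have hfac : ∀ k : ℕ, ∃ y : M2 S, X ^ k - 1 = (X - 1) * y ∧
      ∀ m : ℕ, (X ^ m - (q : S) ^ m • 1) * (X ^ k - 1) = 0 := fun k => by
    refine ⟨∑ i ∈ Finset.range k, X ^ i, (mul_geom_sum X k).symm, fun m => ?_⟩
    rw [← mul_geom_sum X k, ← mul_assoc, sub_mul, hk, Algebra.smul_mul_assoc, one_mul, sub_self,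
      zero_mul]
  have htrk : ∀ k : ℕ, (X ^ k).trace = (q : S) ^ k + 1 := fun k => by
    induction k with
    | zero => simp [Matrix.trace_one]; norm_num
    | succ k ih =>
      have : X ^ (k + 1) = X ^ k + (q : S) ^ k • (X - 1) := by
        rw [← hk, pow_succ, mul_sub, mul_one]; abel
      rw [this, Matrix.trace_add, Matrix.trace_smul, Matrix.trace_sub, Matrix.trace_one, htr, ih,
        Fintype.card_fin, smul_eq_mul]
      push_cast
      ring
  refine ⟨fun g hg h hh => ?_, fun g hg => ?_⟩
  · obtain ⟨a, ha, ha'⟩ := hpow g hg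
    obtain ⟨b, hb, -⟩ := hpow h hh
    obtain ⟨-, -, hy⟩ := hfac b
    rw [one_mul, one_smul, ha, ha', hb]
    exact hy a
  · obtain ⟨a, ha, ha'⟩ := hpow g hg
    rw [ha, ha', one_mul, htrk]

end Fermat.Agent.LT.Deform
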