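import Fermat.Agent.LT.Deform.Assembly

/-!
# Local identities with universal integral coefficients

A representation is ordinary on a set `D` with characters `ε χ` and `ε` if
`(ρ g - ε g χ g) (ρ h - ε h) = 0` there. Then the commutator with `ρ τ - 1` and the product
`(ρ h - 1) (ρ τ - 1)` are twice integral combinations whose coefficients only depend on `χ`.
-/

set_option autoImplicit false

noncomputable section

open Matrix

namespace Fermat.Agent.LT.Deform

variable {G : Type*} [Group G] {S : Type*} [CommRing S]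

/-- On `D` there is a line with character `ε χ` whose quotient has character `ε`. -/
structure OrdAt (ρ : G →* M2 S) (D : Set G) (χ : G → ℤ) (ε : G → S) : Prop where
  /-- `ρ g - ε χ` kills the image of `ρ h - ε`. -/
  mul : ∀ g ∈ D, ∀ h ∈ D, (ρ g - (ε g * (χ g : S)) • 1) * (ρ h - ε h • 1) = 0
  /-- The trace is the sum of the two characters. -/
  trace : ∀ g ∈ D, (ρ g).trace = ε g * ((χ g : S) + 1)

/-- The coefficients of the commutator when the quotient character is trivial. -/
def commC₁ (τ g : G) (γ β : ℤ) : G →₀ ℤ :=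
  Finsupp.single (g * τ) (-γ) + Finsupp.single g (γ - β) + Finsupp.single 1 β

/-- The coefficients of the commutator in general. -/
def commC₂ (τ g : G) (γ β : ℤ) : G →₀ ℤ :=
  Finsupp.single (g * τ) (-γ) + Finsupp.single g (γ - β)

/-- The coefficients of `(ρ h - 1) (ρ τ - 1)`. -/
def inertiaC (τ : G) (β : ℤ) : G →₀ ℤ :=
  Finsupp.single τ β + Finsupp.single 1 (-β)

/-- The function `comb` is additive in its first argument: adding `c'` adds the sum of the
`c' h • ρ h`. -/
theorem comb_add_left (ρ : G → M2 S) (c c' d : G →₀ ℤ) :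
    comb ρ (c + c') d = (c'.sum fun h n => n • ρ h) + comb ρ c d := by
  classical
  unfold comb
  rw [Finsupp.sum_add_index (fun _ _ => zero_zsmul _) (fun _ _ _ _ => add_zsmul _ _ _)]
  abel

/-- A single group element gives the combination `n • ρ x`. -/
theorem comb_single (ρ : G → M2 S) (x : G) (n : ℤ) :
    comb ρ (Finsupp.single x n) 0 = n • ρ x := by
  simp [comb, Finsupp.sum_single_index]

/-- One element and one trace give `n • ρ x + m • tr (ρ y)`. -/
theorem comb_single_single (ρ : G → M2 S) (x y : G) (n m : ℤ) :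
    comb ρ (Finsupp.single x n) (Finsupp.single y m) =
      n • ρ x + (m • (ρ y).trace) • (1 : M2 S) := by
  simp [comb, Finsupp.sum_single_index]

/-- A line with character `ε det ρ` whose quotient has character `ε`, determinant form. -/
structure LineAt (ρ : G →* M2 S) (D : Set G) (ε : G → S) : Prop where
  /-- `ρ g - ε det ρ` kills the image of `ρ h - ε`. -/
  mul : ∀ g ∈ D, ∀ h ∈ D, (ρ g - (ε g * (ρ g).det) • 1) * (ρ h - ε h • 1) = 0
  /-- The trace is the sum of the two characters. -/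
  trace : ∀ g ∈ D, (ρ g).trace = ε g * ((ρ g).det + 1)

/-- Reduction of a line to one with prescribed determinant. -/
theorem LineAt.ordAt {ρ : G →* M2 S} {D : Set G} {ε : G → S} (h : LineAt ρ D ε) {S' : Type*}
    [CommRing S'] (f : S →+* S') (ρ' : G →* M2 S') (h' : ∀ g, f.mapMatrix (ρ g) = ρ' g)
    {χ : G → ℤ} (hχ : ∀ g ∈ D, f (ρ g).det = (χ g : S')) : OrdAt ρ' D χ (f ∘ ε) := by
  have hs : ∀ x : S, f.mapMatrix (x • (1 : M2 S)) = f x • (1 : M2 S') := fun x => by
    ext i j
    by_cases hij : i = j <;> simp [hij]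
  refine ⟨fun g hg k hk => ?_, fun g hg => ?_⟩
  · have := congrArg f.mapMatrix (h.mul g hg k hk)
    rwa [map_mul, map_sub, map_sub, map_zero, h', h', hs, hs, map_mul, hχ g hg] at this
  · rw [← h' g]
    refine (AddMonoidHom.map_trace f.toAddMonoidHom _).symm.trans ?_
    show f _ = _
    rw [h.trace g hg, map_mul, map_add, map_one, hχ g hg]
    rfl

namespace OrdAt

variable {ρ : G →* M2 S} {D : Set G} {χ : G → ℤ} {ε : G → S} (hρ : OrdAt ρ D χ ε)
  {τ : G} (hτ : τ ∈ D) (hετ : ε τ = 1) {β : ℤ} (hβ : (χ τ : S) = 1 + 2 * (β : S))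

include hρ hτ hετ in
theorem mul_sub_one {g : G} (hg : g ∈ D) :
    ρ g * (ρ τ - 1) = (ε g * (χ g : S)) • (ρ τ - 1) := by
  have h := hρ.mul g hg τ hτ
  rw [hετ, one_smul, sub_mul, Algebra.smul_mul_assoc, one_mul, sub_eq_zero] at h
  exact h

include hρ hτ hετ hβ in
theorem sub_one_mul {g : G} (hg : g ∈ D) :
    (ρ τ - 1) * ρ g = ε g • (ρ τ - 1) + (2 * (β : S)) • (ρ g - ε g • 1) := by
  have h := hρ.mul τ hτ g hg
  rw [hετ, one_mul, hβ] at h
  have e : ρ τ - (1 + 2 * (β : S)) • (1 : M2 S) = (ρ τ - 1) - (2 * (β : S)) • 1 := by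
    rw [add_smul, one_smul]; abel
  rw [e, sub_mul, Algebra.smul_mul_assoc, one_mul, sub_eq_zero, mul_sub, Algebra.mul_smul_comm,
    mul_one, sub_eq_iff_eq_add] at h
  rw [h, add_comm]

include hρ hτ hετ hβ in
/-- The commutator of `ρ g` with `ρ τ - 1` as an even combination plus a multiple of the
identity. -/
theorem comm_eq {g : G} (hg : g ∈ D) {γ : ℤ} (hγ : (1 + 2 * (γ : S)) * (χ g : S) = 1) :
    ρ g * (ρ τ - 1) - (ρ τ - 1) * ρ g =
      (2 : ℤ) • (-γ • ρ (g * τ) + (γ - β) • ρ g) + (2 * (β : S) * ε g) • 1 := by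
  have h1 := hρ.mul_sub_one hτ hετ hg
  have h2 := hρ.sub_one_mul hτ hετ hβ hg
  have h3 : ε g • (ρ τ - 1) = (1 + 2 * (γ : S)) • (ρ g * (ρ τ - 1)) := by
    rw [h1, smul_smul, ← mul_assoc, mul_comm _ (ε g), mul_assoc, hγ, mul_one]
  rw [h2, h3, smul_sub (2 * (β : S)), smul_smul, map_mul]
  simp only [← Int.cast_smul_eq_zsmul S, mul_sub, mul_one]
  push_cast
  module

include hρ hτ hετ hβ in
/-- For `ε g = 1` the commutator of `ρ g` with `ρ τ - 1` is an even combination. -/
theorem comm₁ {g : G} (hg : g ∈ D) (hεg : ε g = 1) {γ : ℤ}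
    (hγ : (1 + 2 * (γ : S)) * (χ g : S) = 1) :
    ρ g * (ρ τ - 1) - (ρ τ - 1) * ρ g = (2 : ℤ) • comb ρ (commC₁ τ g γ β) 0 := by
  rw [hρ.comm_eq hτ hετ hβ hg hγ, commC₁, comb_add_left, comb_add_left, comb_single,
    Finsupp.sum_single_index (zero_zsmul _), Finsupp.sum_single_index (zero_zsmul _), map_one, hεg]
  simp only [← Int.cast_smul_eq_zsmul S]
  push_cast
  module

include hρ hτ hετ in
/-- For `ε h = 1` the product `(ρ h - 1) (ρ τ - 1)` is an even combination. -/
theorem inertia_eq {h : G} (hh : h ∈ D) (hεh : ε h = 1) {β' : ℤ}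
    (hβ' : (χ h : S) = 1 + 2 * (β' : S)) :
    (ρ h - 1) * (ρ τ - 1) = (2 : ℤ) • comb ρ (inertiaC τ β') 0 := by
  rw [sub_mul, one_mul, hρ.mul_sub_one hτ hετ hh, hεh, one_mul, hβ', inertiaC, comb_add_left,
    comb_single, Finsupp.sum_single_index (zero_zsmul _), map_one]
  simp only [← Int.cast_smul_eq_zsmul S]
  push_cast
  module

include hρ hτ hετ hβ in
/-- The trace of the inertia element is `2 + 2 β`. -/
theorem trace_eq : (ρ τ).trace = ((2 + 2 * β : ℤ) : S) := by
  rw [hρ.trace τ hτ, hετ, hβ]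
  push_cast
  ring

omit hτ hετ hβ in
include hρ in
/-- The property passes to the image under a ring homomorphism. -/
theorem map {S' : Type*} [CommRing S'] (f : S →+* S') (ρ' : G →* M2 S')
    (h' : ∀ g, f.mapMatrix (ρ g) = ρ' g) : OrdAt ρ' D χ (f ∘ ε) := by
  have hs : ∀ x : S, f.mapMatrix (x • (1 : M2 S)) = f x • (1 : M2 S') := fun x => by
    ext i j
    by_cases hij : i = j <;> simp [hij]
  refine ⟨fun g hg h hh => ?_, fun g hg => ?_⟩
  · have := congrArg f.mapMatrix (hρ.mul g hg h hh)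
    simpa only [map_mul, map_sub, map_zero, h', hs, map_intCast, Function.comp_apply] using this
  · rw [← h' g]
    refine (AddMonoidHom.map_trace f.toAddMonoidHom _).symm.trans ?_
    show f _ = _
    rw [hρ.trace g hg]
    simp

/-- Componentwise properties give the property for functions. -/
theorem pi {ι : Type*} {S : ι → Type*} [∀ i, CommRing (S i)] {ρ : G →* M2 (∀ i, S i)}
    {ρi : ∀ i, G →* M2 (S i)} (h : ∀ i g, (Pi.evalRingHom S i).mapMatrix (ρ g) = ρi i g)
    {D : Set G} {χ : G → ℤ} {ε : ∀ i, G → S i} (hi : ∀ i, OrdAt (ρi i) D χ (ε i)) :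
    OrdAt ρ D χ fun g i => ε i g := by
  have hs : ∀ i (x : ∀ i, S i), (Pi.evalRingHom S i).mapMatrix (x • (1 : M2 (∀ i, S i))) =
      x i • (1 : M2 (S i)) := fun i x => by
    ext a b
    by_cases hab : a = b <;> simp [hab]
  refine ⟨fun g hg k hk => ?_, fun g hg => ?_⟩
  · suffices e : ∀ i, (Pi.evalRingHom S i).mapMatrix
        ((ρ g - ((fun i => ε i g) * (χ g : ∀ i, S i)) • 1) * (ρ k - (fun i => ε i k) • 1)) = 0 by
      ext a b i
      exact congrFun (congrFun (e i) a) b
    intro i
    rw [map_mul, map_sub, map_sub, h, h, hs, hs]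
    simpa using (hi i).mul g hg k hk
  · funext i
    have := (hi i).trace g hg
    rw [← h i g] at this
    refine Eq.trans ?_ (this.trans (by simp))
    exact AddMonoidHom.map_trace (Pi.evalRingHom S i).toAddMonoidHom (ρ g)

end OrdAt

end Fermat.Agent.LT.Deform
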